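import Fermat.Agent.DIV.Main

set_option autoImplicit false

/-!
# S19 / ND, leaf (L-Mx): base changed functions are algebraic over `cl ∅ (j)`
-/

namespace Fermat.Agent.S19.ND

open Fermat.Agent Fermat.Agent.S24 Fermat.Agent.C24 Fermat.Agent.NV Fermat.Agent.DIV
open IntermediateField Polynomial

theorem iotaF_mem_adjoin (N : ℕ) [NeZero N] {z : S24.FN N} (hz : z ∈ Kb⟮S24.jF N⟯) :
    NV.iotaF N z ∈ IntermediateField.adjoin (DIV.cl (∅ : Set Kc)) {C24.jF N} := by
  induction hz using IntermediateField.adjoin_induction with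
  | mem x hx =>
    rw [Set.mem_singleton_iff] at hx
    subst hx
    rw [DIV.iotaF_jF]
    exact IntermediateField.mem_adjoin_simple_self _ _
  | algebraMap c =>
    rw [DIV.iotaF_algebraMap]
    have hc : iotaKC c ∈ DIV.cl (∅ : Set Kc) := (DIV.mem_cl_empty_iff _).2 ⟨c, rfl⟩
    exact (IntermediateField.adjoin (DIV.cl (∅ : Set Kc)) {C24.jF N}).algebraMap_mem
      (⟨iotaKC c, hc⟩ : DIV.cl (∅ : Set Kc))
  | add x y _ _ hx hy => rw [map_add]; exact add_mem hx hy
  | inv x _ hx => rw [map_inv₀]; exact inv_mem hx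
  | mul x y _ _ hx hy => rw [map_mul]; exact mul_mem hx hy

theorem iotaF_mem_Mx (N : ℕ) [NeZero N] (f : S24.FN N) :
    NV.iotaF N f ∈ DIV.Mx (DIV.cl (∅ : Set Kc)) (C24.jF N) := by
  rw [DIV.mem_Mx, isAlgebraic_iff_isIntegral]
  have hf : IsIntegral Kb⟮S24.jF N⟯ f :=
    ((S24.degree_isAlgebraic N).isAlgebraic f).isIntegral
  let φ : Kb⟮S24.jF N⟯ →+* IntermediateField.adjoin (DIV.cl (∅ : Set Kc)) {C24.jF N} :=
    ((NV.iotaF N).comp (algebraMap Kb⟮S24.jF N⟯ (S24.FN N))).codRestrict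
      (IntermediateField.adjoin (DIV.cl (∅ : Set Kc)) {C24.jF N}).toSubfield.toSubring
      (fun z => iotaF_mem_adjoin N z.2)
  exact hf.map_of_comp_eq φ (NV.iotaF N) (by ext z; rfl)

end Fermat.Agent.S19.ND
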