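import Fermat.Agent.S19.ND.Core
import Fermat.Agent.S19.ND.Mx
import Fermat.Agent.DIV.Main

set_option autoImplicit false
set_option linter.style.haveILetI false
set_option linter.unusedSectionVars false

/-!
# S19 / ND : base change from `ℚ̄` to `ℂ` (values, divisors, torsion classes) and the non degeneracy theorem over `ℚ̄`
-/

namespace Fermat.Agent.S19.ND

open AlgebraicCurve Fermat.Agent.NV Fermat.Agent.RL Fermat.Agent.DIV
open Fermat.Agent.S24 (Kb)
open Fermat.Agent.C24 (Kc)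

variable (N : ℕ) [NeZero N]

local notation "hb" => S24.isFF1_FN N
local notation "hc" => C24.isFF1_FN N

theorem valAt_bc (v : Place Kb (S24.FN N)) (f : S24.FN N) :
    valAt (C24.isFF1_FN N) (bc N v) (iotaF N f) = iotaKC (valAt (S24.isFF1_FN N) v f) := by
  by_cases hf : f ∈ v.toValuationSubring
  · by_cases hne : f = algebraMap Kb (S24.FN N) (valAt (S24.isFF1_FN N) v f)
    · conv_lhs => rw [hne]
      rw [iotaF_algebraMap, valAt_algebraMap]
    · have h1 := ord_sub_valAt_pos (S24.isFF1_FN N) v hf hne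
      rw [← ord_bc, map_sub, iotaF_algebraMap] at h1
      exact (valAt_eq_of_ord_pos (C24.isFF1_FN N) (bc N v) h1).2
  · have hf' : iotaF N f ∉ (bc N v).toValuationSubring := by
      rw [S24.mem_iff_ord_nonneg, ord_bc, ← S24.mem_iff_ord_nonneg]
      exact hf
    rw [valAt, dif_neg hf', valAt, dif_neg hf, map_zero]

theorem ev_bcD (D : Divisor Kb (S24.FN N)) (f : S24.FN N) :
    ev (C24.isFF1_FN N) (bcD N D) (iotaF N f) = iotaKC (ev (S24.isFF1_FN N) D f) := by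
  unfold ev
  have : bcD N D = D.mapDomain (bc N) := rfl
  rw [this, Finsupp.prod_mapDomain_index_inj (bc_injective N), map_finsuppProd]
  refine Finsupp.prod_congr fun v _ => ?_
  rw [valAt_bc, map_zpow₀]

theorem isDv_bcD {f : S24.FN N} {A : Divisor Kb (S24.FN N)} (hf : IsDv f A) :
    IsDv (iotaF N f) (bcD N A) := by
  refine ⟨(map_ne_zero _).2 hf.1, fun w => ?_⟩
  by_cases hw : w ∈ Set.range (bc N)
  · obtain ⟨v, rfl⟩ := hw
    rw [ord_bc, bcD_apply, hf.2]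
  · rw [ord_iotaF_of_not_mem_range N hw, bcD_apply_of_not_mem N A hw]

theorem bcD_mem_degZero {A : Divisor Kb (S24.FN N)}
    (hA : A ∈ Divisor.degZero (K := Kb) (F := S24.FN N)) :
    bcD N A ∈ Divisor.degZero (K := Kc) (F := C24.FN N) := by
  rw [Divisor.mem_degZero, degree_bcD]
  exact Divisor.mem_degZero.1 hA

theorem bcD_disj {D E : Divisor Kb (S24.FN N)} (hDE : ∀ v, D v ≠ 0 → E v = 0)
    (w : Place Kc (C24.FN N)) (hw : bcD N D w ≠ 0) : bcD N E w = 0 := by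
  by_cases hr : w ∈ Set.range (bc N)
  · obtain ⟨v, rfl⟩ := hr
    rw [bcD_apply] at hw ⊢
    exact hDE v hw
  · exact bcD_apply_of_not_mem N E hr

/-- a generic place is not in the range of `bc`. -/
theorem not_mem_range_of_isGen {𝔤 : Geo Kc (C24.FN N)} (hx : 𝔤.x = C24.jF N)
    {P : Place Kc (C24.FN N)} (hP : 𝔤.IsGen (C24.isFF1_FN N) ∅ P) : P ∉ Set.range (bc N) := by
  intro hr
  obtain ⟨h1, h2⟩ := hP
  rw [hx] at h1 h2
  rcases (mem_range_bc_iff N P).1 hr with h3 | ⟨c, h3⟩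
  · rw [S24.mem_iff_ord_nonneg] at h1
    omega
  · apply h2
    rw [(valAt_eq_of_ord_pos (C24.isFF1_FN N) P h3).2, mem_cl_empty_iff]
    exact ⟨c, rfl⟩

/-- the torsion classes over `ℂ` are defined over `ℚ̄`. -/
theorem exists_torsion_descent {m : ℕ} (hm : 0 < m) (y : Pic0 Kc (C24.FN N)) (hy : m • y = 0) :
    ∃ (B : Divisor Kb (S24.FN N)) (hB : B ∈ Divisor.degZero (K := Kb) (F := S24.FN N)),
      Pic0.mk ⟨bcD N B, bcD_mem_degZero N hB⟩ = y := by
  obtain ⟨𝔤, hact, hx⟩ := exists_geo N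
  have h := C24.isFF1_FN N
  have hΩ : Rich Kc := rich_of_uncountable
  have hfin : {c : Pic0 Kc (C24.FN N) | m • c = 0}.Finite :=
    Set.finite_coe_iff.1 (finite_torsion N m hm)
  have hsupp : ∀ P ∈ (red h 𝔤.o y).support, ∀ s, valOpt h P 𝔤.x = some s →
      s ∈ cl (∅ : Set Kc) := by
    letI := 𝔤.mulActionPlace
    letI := 𝔤.distribPic
    have h1 : m • y ∈ FinOrb (Pic0 Kc (C24.FN N)) (∅ : Set Kc) := by
      rw [hy]
      exact zero_mem _
    have h2 : y ∈ FinOrb (Pic0 Kc (C24.FN N)) (∅ : Set Kc) := saturated hfin h1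
    intro P hP s hs
    exact over_of_mem_FinOrb (𝔤.setup h hΩ) hΩ h2 hP s hs
  rw [hx] at hsupp
  obtain ⟨Db, hDb⟩ := exists_bcD_eq N fun P hP => mem_range_bc_of_valOpt N (hsupp P hP)
  obtain ⟨ob, hob⟩ : 𝔤.o ∈ Set.range (bc N) := by
    rw [mem_range_bc_iff]
    left
    rw [← hx]
    exact 𝔤.ord_o
  have hB := sub_degree_smul_mem_degZero (S24.isFF1_FN N) ob Db
  have hBc : bcD N (Db - Divisor.degree Db • pt ob)
      = red h 𝔤.o y - Divisor.degree (red h 𝔤.o y) • pt 𝔤.o := by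
    rw [map_sub, map_zsmul, bcD_single, hDb, hob, ← hDb, degree_bcD]
  refine ⟨_, hB, ?_⟩
  conv_rhs => rw [← clsOf_red h 𝔤.o y]
  unfold clsOf
  congr 1
  exact Subtype.ext hBc

/-- the Weil pairing of `[D]` with the `m`-torsion is trivial (over `ℚ̄`). -/
theorem triv_bcD {m : ℕ} (hm : 0 < m) {D : Divisor Kb (S24.FN N)} {f : S24.FN N}
    (hT : Triv (S24.isFF1_FN N) m D f) :
    Triv (C24.isFF1_FN N) m (bcD N D) (iotaF N f) := by
  intro y hy
  rw [natCast_zsmul] at hy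
  obtain ⟨B, hB, rfl⟩ := exists_torsion_descent N hm y hy
  -- `m B` is principal
  have h1 : (m : ℤ) • Pic0.mk (⟨B, hB⟩ : Divisor.degZero (K := Kb) (F := S24.FN N)) = 0 := by
    have e1 : (m : ℤ) • Pic0.mk (⟨B, hB⟩ : Divisor.degZero (K := Kb) (F := S24.FN N))
        = Pic0.mk ((m : ℤ) • ⟨B, hB⟩) := rfl
    rw [e1, mk_eq_zero_iff]
    have e2 : m • Pic0.mk (⟨bcD N B, bcD_mem_degZero N hB⟩ :
        Divisor.degZero (K := Kc) (F := C24.FN N)) = Pic0.mk (m • ⟨bcD N B, bcD_mem_degZero N hB⟩) :=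
      rfl
    rw [e2, mk_eq_zero_iff] at hy
    obtain ⟨s, hs⟩ := hy
    have h2 : bcD N ((m : ℤ) • B) ∈ Divisor.principal (K := Kc) (F := C24.FN N) := by
      refine ⟨s, hs.1, fun v => ?_⟩
      rw [hs.2 v, map_zsmul, natCast_zsmul]
      rfl
    obtain ⟨s₀, hs₀, hs₁⟩ := principal_of_bcD N h2
    exact ⟨s₀, hs₀, fun v => (hs₁ v).symm⟩
  obtain ⟨E, φ, hE, hφ, hED, hev⟩ := hT _ h1
  refine ⟨⟨bcD N E, bcD_mem_degZero N E.2⟩, iotaF N φ, ?_, ?_, bcD_disj N hED, ?_⟩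
  · apply sub_eq_zero.1
    have e1 : Pic0.mk (⟨bcD N E, bcD_mem_degZero N E.2⟩ : Divisor.degZero (K := Kc) (F := C24.FN N))
        - Pic0.mk ⟨bcD N B, bcD_mem_degZero N hB⟩
        = Pic0.mk (⟨bcD N E, bcD_mem_degZero N E.2⟩ - ⟨bcD N B, bcD_mem_degZero N hB⟩) := rfl
    rw [e1, mk_eq_zero_iff]
    obtain ⟨s, hs⟩ := (mk_eq_zero_iff (E - ⟨B, hB⟩)).1 (by
      have e2 : Pic0.mk (E - ⟨B, hB⟩) = Pic0.mk E - Pic0.mk ⟨B, hB⟩ := rfl
      rw [e2, hE, sub_self])
    have hs' : IsDv s ((E : Divisor Kb (S24.FN N)) - B) := hs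
    refine ⟨iotaF N s, (isDv_bcD N hs').congr ?_⟩
    rw [map_sub]
    rfl
  · exact (isDv_bcD N hφ).congr (map_zsmul _ _ _)
  · show ev (C24.isFF1_FN N) (bcD N E) (iotaF N f) = _
    rw [ev_bcD, ev_bcD, hev]

/-- **Non degeneracy over `ℚ̄`.** -/
theorem nd_Kb (hWR : WRfor (C24.isFF1_FN N)) {m : ℕ} (hm : 0 < m) {D : Divisor Kb (S24.FN N)}
    {f : S24.FN N} {o : Place Kb (S24.FN N)} (hdeg : Divisor.degree D = 0)
    (hf : IsDv f ((m : ℤ) • D)) (ho : D o = 0) (hT : Triv (S24.isFF1_FN N) m D f) :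
    ∃ g : S24.FN N, IsDv g D := by
  obtain ⟨𝔤, hact, hx⟩ := exists_geo N
  have hΩ : Rich Kc := rich_of_uncountable
  have hfin : {c : Pic0 Kc (C24.FN N) | m • c = 0}.Finite :=
    Set.finite_coe_iff.1 (finite_torsion N m hm)
  have c : GCtx 𝔤 (C24.isFF1_FN N) m (bcD N D) (iotaF N f) (bc N o) :=
    { m_pos := hm
      deg := by rw [degree_bcD, hdeg]
      dv := (isDv_bcD N hf).congr (map_zsmul _ _ _)
      Dgen := fun P hP => bcD_apply_of_not_mem N D (not_mem_range_of_isGen N hx hP)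
      Do := by rw [bcD_apply, ho]
      Dfix := fun σ hσ => by
        rw [hact]
        exact smul_bcD N σ (fun a => fix_iotaKC hσ a) D
      ffix := fun σ hσ => by
        rw [hact]
        exact arC_iotaF N σ (fun a => fix_iotaKC hσ a) f
      ofix := fun σ hσ => by
        rw [hact]
        exact smul_bc N σ (fun a => fix_iotaKC hσ a) o
      fM := by
        rw [hx]
        exact iotaF_mem_Mx N f }
  obtain ⟨g, hg⟩ := core 𝔤 (C24.isFF1_FN N) hΩ hfin hWR c (triv_bcD N hm hT)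
  obtain ⟨g₀, hg₀, hg₁⟩ := principal_of_bcD N (D := D) ⟨g, hg.1, fun v => (hg.2 v).symm⟩
  exact ⟨g₀, hg₀, fun v => (hg₁ v).symm⟩

end Fermat.Agent.S19.ND
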