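import Fermat.Agent.S19.Basic
import Fermat.Agent.S19.ND.Desc

set_option autoImplicit false

/-!
# S19 / ND : the Weil pairing is non degenerate on the left (`NDStatement`)
-/

namespace Fermat.Agent.S19.ND

open AlgebraicCurve ModularCurve Fermat.Agent.RL Fermat.Agent.DIV
open Fermat.Agent.S24 (Kb FN)
open Fermat.Agent.C24 (Kc)

/-- every class has a representative away from `SE`  (also useful for PAIR). -/
theorem exists_isRep (N : ℕ) [NeZero N] {m : ℤ} (hm : m ≠ 0) (x : TM N m) :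
    ∃ (D : Divisor.degZero (K := Kb) (F := FN N)) (f : FN N), IsRep N m x.1 D f := by
  obtain ⟨D₀, hD₀⟩ := Pic0.mk_surjective x.1
  obtain ⟨u, hu, hord⟩ := exists_ord_eq (hFF N) (SE_finite N hm).toFinset
    (fun v => - (D₀ : Divisor Kb (FN N)) v)
  obtain ⟨U, hU⟩ := exists_isDv (hFF N) hu
  have hUdeg : U ∈ Divisor.degZero (K := Kb) (F := FN N) :=
    Divisor.mem_degZero.2 (hU.degree (hFF N))
  have hDx : Pic0.mk (D₀ + ⟨U, hUdeg⟩) = x.1 := by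
    rw [Pic0.mk_add, hD₀, (mk_eq_zero_iff ⟨U, hUdeg⟩).2 ⟨u, hU⟩, add_zero]
  obtain ⟨f, hf⟩ := exists_isDiv_of_smul_eq_zero N m (D₀ + ⟨U, hUdeg⟩) (by
    rw [hDx]
    exact (Submodule.mem_torsionBy_iff _ _).1 x.2)
  refine ⟨D₀ + ⟨U, hUdeg⟩, f, hDx, hf, fun v hv => ?_⟩
  show ((D₀ : Divisor Kb (FN N)) + U) v = 0
  rw [Finsupp.add_apply, ← hU.2 v, hord v ((SE_finite N hm).mem_toFinset.2 hv), add_neg_cancel]

/-- **ND.** -/
theorem nd (hWR : WRStatement) (N : ℕ) [NeZero N] (m : ℤ) (hm : 0 < m) : NDStatement N m := by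
  intro e he x hx
  obtain ⟨D, f, hrep⟩ := exists_isRep N hm.ne' x
  obtain ⟨n, rfl⟩ : ∃ n : ℕ, m = (n : ℤ) := ⟨m.toNat, (Int.toNat_of_nonneg hm.le).symm⟩
  have hn : 0 < n := by omega
  have hWRc : WRfor (C24.isFF1_FN N) := fun f g Df Dg hf hg hd =>
    hWR Kc (C24.FN N) (C24.isFF1_FN N) f g Df Dg hf hg hd
  have hT : Triv (S24.isFF1_FN N) n (D : Divisor Kb (FN N)) f := by
    intro y hy
    have hy' : y ∈ Submodule.torsionBy ℤ (JZero N) (n : ℤ) :=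
      (Submodule.mem_torsionBy_iff _ _).2 hy
    obtain ⟨φ, hφ⟩ := exists_isDiv_Ed N (n : ℤ) ⟨y, hy'⟩
    refine ⟨⟨Ed N y, Ed_mem_degZero N y⟩, φ, mk_Ed N y, hφ, fun v hv => ?_, ?_⟩
    · have hvSE : v ∉ SE N (n : ℤ) := fun h => hv (hrep.2.2 v h)
      have h1 : v ≠ oo N := fun h => hvSE (Or.inl h)
      show Ed N y v = 0
      rw [Ed_apply_of_ne N y h1]
      by_contra h2
      exact hvSE (Or.inr ⟨⟨y, hy'⟩, h2⟩)
    · have h1 := he x ⟨y, hy'⟩ D f φ hrep hφ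
      rw [hx, one_mul] at h1
      exact h1.symm
  obtain ⟨g, hg⟩ := nd_Kb N hWRc hn (o := oo N) (Divisor.mem_degZero.1 D.2) hrep.2.1
    (hrep.2.2 _ (Or.inl rfl)) hT
  apply Subtype.ext
  rw [← hrep.1]
  exact (mk_eq_zero_iff D).2 ⟨g, hg⟩

end Fermat.Agent.S19.ND
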