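import Fermat.Agent.DIV.Ext

set_option autoImplicit false

/-!
# S19 / ND / L-Fix : an algebraic element fixed by all automorphisms of `Ω / L` lies in `L`
-/

namespace Fermat.Agent.S19.ND

theorem mem_range_of_fixed {L Ω : Type*} [Field L] [Field Ω] [Algebra L Ω] [IsAlgClosed Ω]
    [CharZero L] (G : Ω) (halg : IsAlgebraic L G) (hfix : ∀ σ : Ω ≃ₐ[L] Ω, σ G = G) :
    G ∈ Set.range (algebraMap L Ω) := by
  classical
  let M : IntermediateField L Ω := algebraicClosure L Ω
  have hcl : IsAlgClosure L M := algebraicClosure.isAlgClosure L Ω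
  have hGal : IsGalois L M := IsAlgClosure.isGalois L M
  let G' : M := ⟨G, mem_algebraicClosure_iff.mpr halg⟩
  obtain ⟨ι, v, hv⟩ := exists_isTranscendenceBasis' M Ω
  have key : ∀ τ : M ≃ₐ[L] M, τ G' = G' := by
    intro τ
    obtain ⟨σ, hσ, -⟩ := DIV.exists_extend (K := Ω) τ.toRingEquiv hv hv (Equiv.refl ι)
    have hσL : ∀ a : L, σ (algebraMap L Ω a) = algebraMap L Ω a := by
      intro a
      have h1 : algebraMap L Ω a = algebraMap M Ω (algebraMap L M a) := rfl
      rw [h1, hσ]
      congr 1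
      exact τ.commutes a
    have h2 := hfix (AlgEquiv.ofRingEquiv (f := σ) hσL)
    have h3 : σ (algebraMap M Ω G') = algebraMap M Ω G' := h2
    rw [hσ] at h3
    exact (algebraMap M Ω).injective h3
  obtain ⟨a, ha⟩ := (InfiniteGalois.mem_range_algebraMap_iff_fixed (k := L) (K := M) G').mpr key
  exact ⟨a, congrArg (algebraMap M Ω) ha⟩

end Fermat.Agent.S19.ND
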