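import Fermat.Agent.RL.Riemann
import Fermat.Agent.DIV.Val

set_option autoImplicit false

/-!
# S19 / ND / L-Move : functions with prescribed orders at finitely many places
-/

namespace Fermat.Agent.S19.ND

open AlgebraicCurve Fermat.Agent.S24 Fermat.Agent.RL

variable {K F : Type*} [Field K] [Field F] [Algebra K F] [IsAlgClosed K] [CharZero K]

theorem infinite_place (h : S24.IsFF1 K F) : Infinite (Place K F) := by
  obtain ⟨x, hx, -⟩ := id h
  choose w hw using fun a : K => DIV.exists_valOpt_eq h hx a
  refine Infinite.of_injective w ?_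
  intro a b hab
  have h1 := hw a
  rw [hab, hw b] at h1
  exact (Option.some.inj h1).symm

theorem exists_ord_eq (h : S24.IsFF1 K F) (S : Finset (Place K F)) (n : Place K F → ℤ) :
    ∃ u : F, u ≠ 0 ∧ ∀ v ∈ S, v.ord u = n v := by
  classical
  rcases S.eq_empty_or_nonempty with rfl | hne
  · exact ⟨1, one_ne_zero, by simp⟩
  have := infinite_place h
  obtain ⟨P0, hP0⟩ := Infinite.exists_notMem_finset S
  obtain ⟨c, hc⟩ := riemann_eq h
  set A0 : Divisor K F := -(∑ v ∈ S, Finsupp.single v (n v)) with hA0
  set k : ℤ := c + 1 - Divisor.degree A0 with hk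
  set A : Divisor K F := A0 + Finsupp.single P0 k with hA
  have hdegA : Divisor.degree A = c + 1 := by
    rw [hA, map_add, Divisor.degree_single, deg_eq_one h P0, hk]
    push_cast
    ring
  have hAv : ∀ v ∈ S, A v = - n v := by
    intro v hv
    have hne' : P0 ≠ v := fun e => hP0 (e ▸ hv)
    rw [hA, Finsupp.add_apply, Finsupp.single_eq_of_ne' hne', add_zero, hA0, Finsupp.neg_apply,
      Finsupp.finset_sum_apply, Finset.sum_eq_single v]
    · rw [Finsupp.single_eq_same]
    · intro b _ hb
      exact Finsupp.single_eq_of_ne' hb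
    · intro hv'
      exact absurd hv hv'
  have hellA : (ell A : ℤ) = c + 1 + 1 - genusR h := by
    rw [hc A (by omega), hdegA]
  have hell : ∀ v : Place K F, (ell (A - pt v) : ℤ) = c + 1 - genusR h := by
    intro v
    have hd : Divisor.degree (A - pt v) = c := by
      rw [map_sub, hdegA, degree_pt h]
      ring
    rw [hc _ (by omega), hd]
  let E := LSpace A
  let p : Place K F → Subspace K E := fun v => (LSpace (A - pt v)).comap (LSpace A).subtype
  have hp : ∀ v, p v ≠ ⊤ := by
    intro v htop
    have hle : LSpace A ≤ LSpace (A - pt v) := by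
      intro f hf
      have : (⟨f, hf⟩ : E) ∈ p v := by rw [htop]; trivial
      exact this
    have hfd := finiteDimensional_LSpace h (A - pt v)
    have h1 : ell A ≤ ell (A - pt v) := Submodule.finrank_mono hle
    have h2 := hell v
    omega
  have hs : (⊤ : Subspace K E) ∉ S.image p := by
    intro hmem
    obtain ⟨v, -, hv⟩ := Finset.mem_image.mp hmem
    exact hp v hv
  have hcov := Subspace.biUnion_ne_univ_of_top_notMem hs
  obtain ⟨u, hu⟩ := (Set.ne_univ_iff_exists_notMem _).mp hcov
  have hu' : ∀ v ∈ S, (u : F) ∉ LSpace (A - pt v) := by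
    intro v hv hmem
    apply hu
    simp only [Set.mem_iUnion]
    exact ⟨p v, Finset.mem_image_of_mem p hv, hmem⟩
  obtain ⟨v0, hv0⟩ := hne
  have hu0 : (u : F) ≠ 0 := by
    intro h0
    exact hu' v0 hv0 (h0 ▸ Submodule.zero_mem _)
  refine ⟨u, hu0, fun v hv => ?_⟩
  have h1 : ∀ w : Place K F, 0 ≤ w.ord (u : F) + A w := by
    rcases mem_LSpace.mp u.2 with h0 | h0
    · exact absurd h0 hu0
    · exact h0
  have h2 : ¬ ∀ w : Place K F, 0 ≤ w.ord (u : F) + (A - pt v) w := by
    intro hall
    exact hu' v hv (mem_LSpace.mpr (Or.inr hall))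
  push Not at h2
  obtain ⟨w, hw⟩ := h2
  rw [Finsupp.sub_apply] at hw
  by_cases hwv : w = v
  · subst hwv
    rw [Finsupp.single_eq_same] at hw
    have h3 := h1 w
    have h4 := hAv w hv
    omega
  · rw [Finsupp.single_eq_of_ne' (Ne.symm hwv)] at hw
    have h3 := h1 w
    omega

end Fermat.Agent.S19.ND
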