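import Fermat.Agent.S19.ND.Gv
import Fermat.Agent.S19.ND.Move
import Fermat.Agent.S19.ND.Fix
import Fermat.Agent.DIV.Geo.Setup

set_option autoImplicit false
set_option linter.style.haveILetI false
set_option linter.unusedSectionVars false

/-!
# S19 / ND : the abstract non degeneracy theorem (in the geometric situation `DIV.Geo`)
-/

namespace Fermat.Agent.S19.ND

open AlgebraicCurve Fermat.Agent.S24 Fermat.Agent.DIV Fermat.Agent.RL IntermediateField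

section General

variable {K F : Type*} [Field K] [Field F] [Algebra K F] [IsAlgClosed K] [CharZero K]
  (h : IsFF1 K F) {m : ℕ} {D : Divisor K F} {f : F} {Q o : Place K F}

include h in
theorem exists_good (hdiv : ∀ a : Pic0 K F, ∃ b : Pic0 K F, m • b = a) :
    ∃ (Z : Divisor K F) (r : F), Good m D Q o Z r := by
  have hQo : pt Q - pt o ∈ Divisor.degZero (K := K) (F := F) := by
    rw [Divisor.mem_degZero, map_sub, degree_pt h, degree_pt h, sub_self]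
  obtain ⟨b, hb⟩ := hdiv (Pic0.mk ⟨_, hQo⟩)
  obtain ⟨Z₀, rfl⟩ := Pic0.mk_surjective b
  obtain ⟨u, hu, hord⟩ := exists_ord_eq h D.support (fun v => - (Z₀ : Divisor K F) v)
  obtain ⟨U, hU⟩ := exists_isDv h hu
  obtain ⟨r₀, hr₀⟩ := (mk_eq_zero_iff ((m : ℤ) • Z₀ - ⟨_, hQo⟩)).1 (by
    have : Pic0.mk ((m : ℤ) • Z₀ - ⟨_, hQo⟩) = (m : ℤ) • Pic0.mk Z₀ - Pic0.mk ⟨_, hQo⟩ := rfl
    rw [this, natCast_zsmul, hb, sub_self])
  have hr₀' : IsDv r₀ ((m : ℤ) • (Z₀ : Divisor K F) - (pt Q - pt o)) := hr₀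
  refine ⟨Z₀ + U, r₀ * u ^ m, (hr₀'.mul (hU.pow m)).congr ?_, fun v hv => ?_⟩
  · rw [smul_add]
    abel
  · rw [Finsupp.add_apply, ← hU.2 v, hord v (Finsupp.mem_support_iff.2 hv), add_neg_cancel]

end General

variable {Ω F : Type*} [Field Ω] [Algebra ℚ Ω] [Field F] [Algebra Ω F] [IsAlgClosed Ω]
  [CharZero Ω] (𝔤 : Geo Ω F) (h : IsFF1 Ω F)

/-- the data, defined over the algebraic numbers. -/
structure GCtx (m : ℕ) (D : Divisor Ω F) (f : F) (o : Place Ω F) : Prop where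
  m_pos : 0 < m
  deg : Divisor.degree D = 0
  dv : IsDv f ((m : ℤ) • D)
  Dgen : ∀ P, 𝔤.IsGen h ∅ P → D P = 0
  Do : D o = 0
  Dfix : ∀ σ ∈ fixer (∅ : Set Ω), 𝔤.act σ • D = D
  ffix : ∀ σ ∈ fixer (∅ : Set Ω), 𝔤.act σ • f = f
  ofix : ∀ σ ∈ fixer (∅ : Set Ω), 𝔤.act σ • o = o
  fM : f ∈ Mx (cl (∅ : Set Ω)) 𝔤.x

variable {m : ℕ} {D : Divisor Ω F} {f : F} {o : Place Ω F}

theorem exists_gen (hΩ : Rich Ω) : ∃ Q : Place Ω F, 𝔤.IsGen h ∅ Q := by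
  obtain ⟨t, ht⟩ := hΩ.indep (∅ : Set Ω) Set.finite_empty 1
  have h1 : t 0 ∉ cl (∅ : Set Ω) := fun hmem => ht.transcendental 0 (mem_cl.1 hmem)
  obtain ⟨Q, hQ⟩ := exists_valOpt_eq h 𝔤.transcendental_x (t 0)
  obtain ⟨h2, h3⟩ := (valOpt_eq_some_iff h Q).1 hQ
  exact ⟨Q, h2, by rw [h3]; exact h1⟩

theorem GCtx.valAt_o_mem (hΩ : Rich Ω) (c : GCtx 𝔤 h m D f o) :
    valAt h o f ∈ cl (∅ : Set Ω) := by
  by_contra hn
  refine hΩ.orbit ∅ _ hn ((Set.finite_singleton (valAt h o f)).subset ?_)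
  rintro _ ⟨σ, rfl⟩
  show (σ : Ω ≃ₐ[ℚ] Ω) (valAt h o f) = valAt h o f
  rw [← 𝔤.baseAut_act, ← valAt_smul, c.ofix σ.1 σ.2, c.ffix σ.1 σ.2]

include 𝔤 h in
theorem divisible_all (hΩ : Rich Ω) (hfin : {c : Pic0 Ω F | m • c = 0}.Finite) (a : Pic0 Ω F) :
    ∃ b : Pic0 Ω F, m • b = a := by
  letI := 𝔤.mulActionPlace
  letI := 𝔤.distribPic
  exact divisible_abstract (𝔤.setup h hΩ) hΩ hfin a

/-- **Non degeneracy, abstract form.** -/
theorem core (hΩ : Rich Ω) (hfin : {c : Pic0 Ω F | m • c = 0}.Finite) (hWR : WRfor h)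
    (c : GCtx 𝔤 h m D f o) (hT : Triv h m D f) : ∃ g : F, IsDv g D := by
  obtain ⟨Q, hgen⟩ := exists_gen 𝔤 h hΩ
  have ctx : Ctx m D f Q o := ⟨c.m_pos, c.deg, c.dv, c.Dgen Q hgen, c.Do⟩
  obtain ⟨Z, r, hg⟩ := exists_good h (m := m) (D := D) (Q := Q) (o := o)
    (divisible_all 𝔤 h hΩ hfin)
  have hpow := Gv_pow h hWR ctx hg
  set G := Gv h D f Z r with hG
  obtain ⟨ε, hε⟩ := exists_evM (E := cl (∅ : Set Ω)) h Q hgen.1 (transcendental_iff.2 hgen.2)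
  have ha₀ := c.valAt_o_mem 𝔤 h hΩ
  have ha₀0 : valAt h o f ≠ 0 := valAt_ne_zero' h ctx.dv.1 ctx.ordo
  set a₀ : cl (∅ : Set Ω) := ⟨valAt h o f, ha₀⟩ with ha₀def
  set f' : Mx (cl (∅ : Set Ω)) 𝔤.x := ⟨f, c.fM⟩ with hf'
  have hεa : ε (algebraMap _ _ a₀) = valAt h o f := ε.commutes a₀
  letI : Algebra (Mx (cl (∅ : Set Ω)) 𝔤.x) Ω := ε.toRingHom.toAlgebra
  haveI : CharZero (Mx (cl (∅ : Set Ω)) 𝔤.x) := ⟨fun a b hab => Nat.cast_injective (R := Ω) (by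
    have := congrArg ε hab
    simpa using this)⟩
  have hamap : ∀ z : Mx (cl (∅ : Set Ω)) 𝔤.x, algebraMap (Mx (cl (∅ : Set Ω)) 𝔤.x) Ω z = ε z :=
    fun _ => rfl
  have halg : IsAlgebraic (Mx (cl (∅ : Set Ω)) 𝔤.x) G := by
    refine IsAlgebraic.of_pow c.m_pos ?_
    have : G ^ m = algebraMap (Mx (cl (∅ : Set Ω)) 𝔤.x) Ω (f' / algebraMap _ _ a₀) := by
      rw [hamap, map_div₀, hεa, hε, hpow]
    rw [this]
    exact isAlgebraic_algebraMap _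
  have hfix : ∀ σ : Ω ≃ₐ[Mx (cl (∅ : Set Ω)) 𝔤.x] Ω, σ G = G := by
    intro σ
    set σ' : Ω ≃ₐ[ℚ] Ω := (σ : Ω ≃+* Ω).toRatAlgEquiv with hσ'
    have hσσ : ∀ a, σ' a = σ a := fun _ => rfl
    have hval : ∀ u ∈ Mx (cl (∅ : Set Ω)) 𝔤.x, σ' (valAt h Q u) = valAt h Q u := by
      intro u hu
      rw [hσσ, ← hε ⟨u, hu⟩, ← hamap, σ.commutes]
    have hσ0 : σ' ∈ fixer (∅ : Set Ω) := by
      rw [mem_fixer]
      intro a ha
      have : a = algebraMap (Mx (cl (∅ : Set Ω)) 𝔤.x) Ω (algebraMap _ _ (⟨a, ha⟩ : cl (∅ : Set Ω))) := by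
        rw [hamap, ε.commutes]
        rfl
      rw [hσσ]
      conv_lhs => rw [this]
      rw [σ.commutes, ← this]
    have hQ : 𝔤.act σ' • Q = Q := by
      refine 𝔤.eq_of_centre h (𝔤.isGen_act h hσ0 hgen) hgen ?_ ?_
      · rw [𝔤.valAt_act_x, hval _ (self_mem_Mx _)]
      · rw [𝔤.valAt_act_y h hσ0, hval _ (𝔤.y_mem_Mx ∅)]
    have h1 := hg.smul (𝔤.act σ') (c.Dfix σ' hσ0) hQ (c.ofix σ' hσ0)
    have h2 := Gv_smul h Z r (𝔤.act σ') (c.Dfix σ' hσ0) (c.ffix σ' hσ0)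
    rw [𝔤.baseAut_act, Gv_indep h hWR ctx hT h1 hg] at h2
    exact h2.symm
  obtain ⟨g, hgG⟩ := mem_range_of_fixed G halg hfix
  rw [hamap] at hgG
  have hkey : g ^ m * algebraMap _ _ a₀ = f' := by
    apply ε.toRingHom.injective
    show ε (g ^ m * algebraMap _ _ a₀) = ε f'
    rw [map_mul, map_pow, hgG, hεa, hpow, hε]
    show valAt h Q f / valAt h o f * valAt h o f = valAt h Q f
    field_simp
  have hkey' : (g : F) ^ m * algebraMap Ω F (valAt h o f) = f := by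
    have := congrArg (fun z : Mx (cl (∅ : Set Ω)) 𝔤.x => (z : F)) hkey
    exact this
  have hg0 : (g : F) ≠ 0 := by
    intro h0
    apply ctx.dv.1
    rw [← hkey', h0, zero_pow c.m_pos.ne', zero_mul]
  refine ⟨g, hg0, fun v => ?_⟩
  have h1 := ctx.dv.2 v
  rw [← hkey', v.ord_mul (pow_ne_zero m hg0) ((map_ne_zero _).2 ha₀0), ord_algebraMap, add_zero,
    ord_pow, Finsupp.smul_apply, smul_eq_mul] at h1
  have hm : (m : ℤ) ≠ 0 := by
    have := c.m_pos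
    omega
  exact mul_left_cancel₀ hm h1

end Fermat.Agent.S19.ND
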