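import Fermat.Agent.DIV.Val
import Fermat.Agent.RL.Basic

set_option autoImplicit false

/-!
# S19 / ND : evaluation of a function on a divisor (general function fields)
-/

namespace Fermat.Agent.S19.ND

open AlgebraicCurve Fermat.Agent.S24 Fermat.Agent.DIV Fermat.Agent.RL

variable {K F : Type*} [Field K] [Field F] [Algebra K F] [IsAlgClosed K] (h : IsFF1 K F)

/-- `f(D) = ∏_v f(v) ^ D(v)`. -/
noncomputable def ev (D : Divisor K F) (f : F) : K := D.prod fun v n => valAt h v f ^ n

omit [IsAlgClosed K] in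
/-- `f` is a unit at all the points of `D`. -/
def Reg (D : Divisor K F) (f : F) : Prop := f ≠ 0 ∧ ∀ v, D v ≠ 0 → v.ord f = 0

omit [IsAlgClosed K] in
/-- `div f = D`. -/
def IsDv (f : F) (D : Divisor K F) : Prop := f ≠ 0 ∧ ∀ v : Place K F, v.ord f = D v

theorem valAt_ne_zero' {v : Place K F} {f : F} (hf : f ≠ 0) (hv : v.ord f = 0) :
    valAt h v f ≠ 0 := by
  intro h0
  have := (valAt_eq_zero_iff h v (mem_of_ord_nonneg v hv.ge) hf).1 h0
  omega

theorem valAt_mul' {v : Place K F} {f g : F} (hf : v.ord f = 0) (hg : v.ord g = 0) :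
    valAt h v (f * g) = valAt h v f * valAt h v g :=
  valAt_mul h v (mem_of_ord_nonneg v hf.ge) (mem_of_ord_nonneg v hg.ge)

theorem valAt_inv' {v : Place K F} {f : F} (hf0 : f ≠ 0) (hf : v.ord f = 0) :
    valAt h v f⁻¹ = (valAt h v f)⁻¹ := by
  have h1 : v.ord f⁻¹ = 0 := by rw [v.ord_inv, hf, neg_zero]
  have h2 := valAt_mul' h hf h1
  rw [mul_inv_cancel₀ hf0, valAt_one] at h2
  exact eq_inv_of_mul_eq_one_right h2.symm

namespace Reg

omit [IsAlgClosed K]

variable {D E : Divisor K F} {f g : F}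

theorem add (hD : Reg D f) (hE : Reg E f) : Reg (D + E) f :=
  ⟨hD.1, fun v hv => by
    by_cases h1 : D v = 0
    · by_cases h2 : E v = 0
      · exact absurd (by rw [Finsupp.add_apply, h1, h2, add_zero]) hv
      · exact hE.2 v h2
    · exact hD.2 v h1⟩

theorem neg (hD : Reg D f) : Reg (-D) f :=
  ⟨hD.1, fun v hv => hD.2 v fun h0 => hv (by rw [Finsupp.neg_apply, h0, neg_zero])⟩

theorem sub (hD : Reg D f) (hE : Reg E f) : Reg (D - E) f := by
  rw [sub_eq_add_neg]
  exact hD.add hE.neg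

theorem zsmul (hD : Reg D f) (n : ℤ) : Reg (n • D) f :=
  ⟨hD.1, fun v hv => hD.2 v fun h0 => hv (by rw [Finsupp.smul_apply, h0, smul_zero])⟩

theorem mul (hf : Reg D f) (hg : Reg D g) : Reg D (f * g) :=
  ⟨mul_ne_zero hf.1 hg.1, fun v hv => by
    rw [v.ord_mul hf.1 hg.1, hf.2 v hv, hg.2 v hv, add_zero]⟩

theorem inv (hf : Reg D f) : Reg D f⁻¹ :=
  ⟨inv_ne_zero hf.1, fun v hv => by rw [v.ord_inv, hf.2 v hv, neg_zero]⟩

theorem pow (hf : Reg D f) (n : ℕ) : Reg D (f ^ n) :=
  ⟨pow_ne_zero n hf.1, fun v hv => by rw [ord_pow, hf.2 v hv, mul_zero]⟩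

theorem const (D : Divisor K F) {c : K} (hc : c ≠ 0) : Reg D (algebraMap K F c) :=
  ⟨(map_ne_zero _).2 hc, fun v _ => ord_algebraMap v c⟩

theorem single {v : Place K F} (hf : f ≠ 0) (hv : v.ord f = 0) (n : ℤ) :
    Reg (Finsupp.single v n) f :=
  ⟨hf, fun w hw => by
    classical
    rw [Finsupp.single_apply] at hw
    split_ifs at hw with h1
    · rw [← h1]; exact hv
    · exact absurd rfl hw⟩

end Reg

theorem ev_zero (f : F) : ev h 0 f = 1 := Finsupp.prod_zero_index

theorem ev_single (v : Place K F) (n : ℤ) (f : F) :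
    ev h (Finsupp.single v n) f = valAt h v f ^ n :=
  Finsupp.prod_single_index (zpow_zero _)

theorem ev_add {D E : Divisor K F} {f : F} (hD : Reg D f) (hE : Reg E f) :
    ev h (D + E) f = ev h D f * ev h E f := by
  classical
  refine Finsupp.prod_add_index (fun v _ => zpow_zero _) fun v hv a b => ?_
  refine zpow_add₀ (valAt_ne_zero' h hD.1 ?_) a b
  rcases Finset.mem_union.1 hv with h1 | h1
  · exact hD.2 v (Finsupp.mem_support_iff.1 h1)
  · exact hE.2 v (Finsupp.mem_support_iff.1 h1)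

theorem ev_neg (D : Divisor K F) (f : F) : ev h (-D) f = (ev h D f)⁻¹ := by
  unfold ev
  rw [Finsupp.prod_neg_index (fun v => zpow_zero _), Finsupp.prod, Finsupp.prod,
    ← Finset.prod_inv_distrib]
  exact Finset.prod_congr rfl fun v _ => zpow_neg _ _

theorem ev_sub {D E : Divisor K F} {f : F} (hD : Reg D f) (hE : Reg E f) :
    ev h (D - E) f = ev h D f / ev h E f := by
  rw [sub_eq_add_neg, ev_add h hD hE.neg, ev_neg, div_eq_mul_inv]

theorem ev_zsmul (n : ℤ) (D : Divisor K F) (f : F) : ev h (n • D) f = ev h D f ^ n := by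
  unfold ev
  rw [Finsupp.prod_of_support_subset _ Finsupp.support_smul _ (fun v _ => zpow_zero _),
    Finsupp.prod, ← Finset.prod_zpow]
  exact Finset.prod_congr rfl fun v _ => by
    rw [Finsupp.smul_apply, smul_eq_mul, mul_comm, zpow_mul]

theorem ev_ne_zero {D : Divisor K F} {f : F} (hD : Reg D f) : ev h D f ≠ 0 := by
  unfold ev
  rw [Finsupp.prod, Finset.prod_ne_zero_iff]
  intro v hv
  exact zpow_ne_zero _ (valAt_ne_zero' h hD.1 (hD.2 v (Finsupp.mem_support_iff.1 hv)))

theorem ev_mul {D : Divisor K F} {f g : F} (hf : Reg D f) (hg : Reg D g) :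
    ev h D (f * g) = ev h D f * ev h D g := by
  unfold ev
  rw [← Finsupp.prod_mul]
  refine Finsupp.prod_congr fun v hv => ?_
  have hv' := Finsupp.mem_support_iff.1 hv
  rw [valAt_mul' h (hf.2 v hv') (hg.2 v hv'), mul_zpow]

theorem ev_inv {D : Divisor K F} {f : F} (hf : Reg D f) : ev h D f⁻¹ = (ev h D f)⁻¹ := by
  have h1 := ev_mul h hf hf.inv
  have h2 : ev h D (f * f⁻¹) = 1 := by
    rw [mul_inv_cancel₀ hf.1]
    unfold ev
    refine Finset.prod_eq_one fun v _ => ?_
    show valAt h v 1 ^ _ = 1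
    rw [valAt_one, one_zpow]
  rw [h2] at h1
  exact eq_inv_of_mul_eq_one_right h1.symm

theorem ev_pow {D : Divisor K F} {f : F} (hf : Reg D f) (n : ℕ) :
    ev h D (f ^ n) = ev h D f ^ n := by
  induction n with
  | zero =>
    rw [pow_zero, pow_zero]
    unfold ev
    refine Finset.prod_eq_one fun v _ => ?_
    show valAt h v 1 ^ _ = 1
    rw [valAt_one, one_zpow]
  | succ n ih => rw [pow_succ, pow_succ, ev_mul h (hf.pow n) hf, ih]

theorem ev_const (D : Divisor K F) {c : K} (hc : c ≠ 0) :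
    ev h D (algebraMap K F c) = c ^ Divisor.degree D := by
  induction D using Finsupp.induction_linear with
  | zero => rw [ev_zero, map_zero, zpow_zero]
  | add D E hD hE =>
    rw [ev_add h (Reg.const D hc) (Reg.const E hc), hD, hE, map_add, zpow_add₀ hc]
  | single v n =>
    rw [ev_single, valAt_algebraMap, Divisor.degree_single, deg_eq_one h, Nat.cast_one, mul_one]

theorem ev_smul (g : SemilinearAut K F) (D : Divisor K F) (f : F) :
    ev h (g • D) (g • f) = SemilinearAut.baseAut g (ev h D f) := by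
  unfold ev
  rw [SemilinearAut.divisor_smul_def, Finsupp.prod_mapDomain_index_inj (MulAction.injective g),
    map_finsuppProd]
  refine Finsupp.prod_congr fun v _ => ?_
  rw [valAt_smul, map_zpow₀]

end Fermat.Agent.S19.ND
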