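import Fermat.Agent.S19.ND.Ev

set_option autoImplicit false

/-!
# S19 / ND : the function `G = f(Z) / r(D)` (general function fields)

`m D = div f`, `m Z - (Q - o) = div r`, `Z` disjoint from `D`.  Then `G ^ m = f(Q) / f(o)` (Weil reciprocity), `G` does not depend on `(Z, r)` if the Weil pairing of `[D]` with all the
`m`-torsion classes is trivial, and `G` is equivariant under semilinear automorphisms.
-/

namespace Fermat.Agent.S19.ND

open AlgebraicCurve Fermat.Agent.S24 Fermat.Agent.DIV Fermat.Agent.RL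

variable {K F : Type*} [Field K] [Field F] [Algebra K F]

namespace IsDv

variable {f g : F} {A B : Divisor K F}

theorem mul (hf : IsDv f A) (hg : IsDv g B) : IsDv (f * g) (A + B) :=
  ⟨mul_ne_zero hf.1 hg.1, fun v => by
    rw [v.ord_mul hf.1 hg.1, hf.2, hg.2, Finsupp.add_apply]⟩

theorem inv (hf : IsDv f A) : IsDv f⁻¹ (-A) :=
  ⟨inv_ne_zero hf.1, fun v => by rw [v.ord_inv, hf.2, Finsupp.neg_apply]⟩

theorem div (hf : IsDv f A) (hg : IsDv g B) : IsDv (f / g) (A - B) := by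
  rw [div_eq_mul_inv, sub_eq_add_neg]
  exact hf.mul hg.inv

theorem pow (hf : IsDv f A) (n : ℕ) : IsDv (f ^ n) ((n : ℤ) • A) :=
  ⟨pow_ne_zero n hf.1, fun v => by
    rw [ord_pow, hf.2, Finsupp.smul_apply, smul_eq_mul]⟩

theorem reg (hf : IsDv f A) {D : Divisor K F} (hD : ∀ v, D v ≠ 0 → A v = 0) : Reg D f :=
  ⟨hf.1, fun v hv => by rw [hf.2, hD v hv]⟩

theorem smul (hf : IsDv f A) (σ : SemilinearAut K F) : IsDv (σ • f) (σ • A) :=
  ⟨fun h0 => hf.1 (by
      have := congrArg (σ⁻¹ • ·) h0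
      simpa using this), fun v => by
    have h1 := SemilinearAut.ord_smul σ (σ⁻¹ • v) f
    rw [smul_inv_smul] at h1
    rw [h1, hf.2, SemilinearAut.divisor_smul_apply]⟩

theorem congr (hf : IsDv f A) (hAB : A = B) : IsDv f B := hAB ▸ hf

end IsDv

variable [IsAlgClosed K] [CharZero K] (h : IsFF1 K F)

include h in
theorem IsDv.degree {f : F} {A : Divisor K F} (hf : IsDv f A) : Divisor.degree A = 0 :=
  degree_eq_zero_of_principal h hf.1 A fun v => (hf.2 v).symm

include h in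
theorem IsDv.const {u : F} (hu : IsDv u (0 : Divisor K F)) :
    ∃ c : K, c ≠ 0 ∧ u = algebraMap K F c := by
  obtain ⟨c, hc⟩ := onlyConst_zero h u (Or.inr fun v => by rw [hu.2 v]; simp)
  refine ⟨c, ?_, hc.symm⟩
  rintro rfl
  exact hu.1 (by rw [← hc, map_zero])

include h in
theorem exists_isDv {u : F} (hu : u ≠ 0) : ∃ U : Divisor K F, IsDv u U := by
  obtain ⟨U, hU, -⟩ := exists_div h hu
  exact ⟨U, hu, fun v => (hU v).symm⟩

omit [IsAlgClosed K] [CharZero K] in
theorem mk_eq_zero_iff (A : Divisor.degZero (K := K) (F := F)) :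
    Pic0.mk A = 0 ↔ ∃ s : F, IsDv s (A : Divisor K F) := by
  rw [Pic0.mk, QuotientAddGroup.eq_zero_iff, AddSubgroup.mem_addSubgroupOf]
  constructor
  · rintro ⟨s, hs, h1⟩
    exact ⟨s, hs, fun v => (h1 v).symm⟩
  · rintro ⟨s, hs, h1⟩
    exact ⟨s, hs, fun v => (h1 v).symm⟩

/-- Weil reciprocity for `F / K`. -/
def WRfor : Prop :=
  ∀ (f g : F) (Df Dg : Divisor K F), IsDv f Df → IsDv g Dg → (∀ v, Df v = 0 ∨ Dg v = 0) →
    ev h Dg f = ev h Df g

omit [IsAlgClosed K] [CharZero K] in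
/-- the data. -/
structure Ctx (m : ℕ) (D : Divisor K F) (f : F) (Q o : Place K F) : Prop where
  m_pos : 0 < m
  deg : Divisor.degree D = 0
  dv : IsDv f ((m : ℤ) • D)
  DQ : D Q = 0
  Do : D o = 0

omit [IsAlgClosed K] [CharZero K] in
/-- `m Z - (Q - o) = div r`, `Z` disjoint from `D`. -/
def Good (m : ℕ) (D : Divisor K F) (Q o : Place K F) (Z : Divisor K F) (r : F) : Prop :=
  IsDv r ((m : ℤ) • Z - pt Q + pt o) ∧ ∀ v, D v ≠ 0 → Z v = 0

/-- `G = f(Z) / r(D)`. -/
noncomputable def Gv (D : Divisor K F) (f : F) (Z : Divisor K F) (r : F) : K :=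
  ev h Z f / ev h D r

variable {m : ℕ} {D : Divisor K F} {f : F} {Q o : Place K F}

omit [IsAlgClosed K] [CharZero K] in
theorem Ctx.reg (c : Ctx m D f Q o) {Z : Divisor K F} (hZ : ∀ v, D v ≠ 0 → Z v = 0) :
    Reg Z f :=
  ⟨c.dv.1, fun v hv => by
    have hD : D v = 0 := by
      by_contra hD
      exact hv (hZ v hD)
    rw [c.dv.2 v, Finsupp.smul_apply, hD, smul_zero]⟩

omit [IsAlgClosed K] [CharZero K] in
theorem Ctx.ordQ (c : Ctx m D f Q o) : Q.ord f = 0 := by
  rw [c.dv.2, Finsupp.smul_apply, c.DQ, smul_zero]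

omit [IsAlgClosed K] [CharZero K] in
theorem Ctx.ordo (c : Ctx m D f Q o) : o.ord f = 0 := by
  rw [c.dv.2, Finsupp.smul_apply, c.Do, smul_zero]

omit [IsAlgClosed K] [CharZero K] in
theorem Good.apply_eq_zero (c : Ctx m D f Q o) {Z : Divisor K F} {r : F} (hg : Good m D Q o Z r)
    {v : Place K F} (hv : D v ≠ 0) : ((m : ℤ) • Z - pt Q + pt o) v = 0 := by
  classical
  have h1 : Q ≠ v := fun e => hv (e ▸ c.DQ)
  have h2 : o ≠ v := fun e => hv (e ▸ c.Do)
  rw [Finsupp.add_apply, Finsupp.sub_apply, Finsupp.smul_apply, hg.2 v hv,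
    Finsupp.single_apply, Finsupp.single_apply, if_neg h1, if_neg h2]
  simp

omit [IsAlgClosed K] [CharZero K] in
theorem Good.reg (c : Ctx m D f Q o) {Z : Divisor K F} {r : F} (hg : Good m D Q o Z r) :
    Reg D r := hg.1.reg fun _ hv => hg.apply_eq_zero c hv

theorem Gv_pow (hWR : WRfor h) (c : Ctx m D f Q o) {Z : Divisor K F} {r : F}
    (hg : Good m D Q o Z r) : Gv h D f Z r ^ m = valAt h Q f / valAt h o f := by
  have hfZ : Reg Z f := c.reg hg.2
  have hQ : Reg (pt Q) f := Reg.single c.dv.1 c.ordQ 1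
  have ho : Reg (pt o) f := Reg.single c.dv.1 c.ordo 1
  have hwr := hWR f r _ _ c.dv hg.1 fun v => by
    by_cases hv : D v = 0
    · left; rw [Finsupp.smul_apply, hv, smul_zero]
    · right; exact hg.apply_eq_zero c hv
  rw [ev_add h ((hfZ.zsmul m).sub hQ) ho, ev_sub h (hfZ.zsmul m) hQ, ev_zsmul, ev_single,
    ev_single, ev_zsmul, zpow_one, zpow_one, zpow_natCast, zpow_natCast] at hwr
  have h1 := valAt_ne_zero' h c.dv.1 c.ordQ
  have h2 := valAt_ne_zero' h c.dv.1 c.ordo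
  have h3 := ev_ne_zero h (hg.reg c)
  have h4 := ev_ne_zero h hfZ
  unfold Gv
  rw [div_pow, ← hwr]
  field_simp

include h in
theorem Good.degree (c : Ctx m D f Q o) {Z : Divisor K F} {r : F} (hg : Good m D Q o Z r) :
    Divisor.degree Z = 0 := by
  have h1 := hg.1.degree h
  rw [map_add, map_sub, map_zsmul, degree_pt h, degree_pt h, smul_eq_mul] at h1
  have h2 : (m : ℤ) * Divisor.degree Z = 0 := by omega
  rcases mul_eq_zero.1 h2 with h3 | h3
  · have := c.m_pos
    omega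
  · exact h3

/-- the triviality of the Weil pairing of `[D]` with the `m`-torsion. -/
def Triv (m : ℕ) (D : Divisor K F) (f : F) : Prop :=
  ∀ y : Pic0 K F, (m : ℤ) • y = 0 → ∃ (E : Divisor.degZero (K := K) (F := F)) (φ : F),
    Pic0.mk E = y ∧ IsDv φ ((m : ℤ) • (E : Divisor K F)) ∧
    (∀ v, D v ≠ 0 → (E : Divisor K F) v = 0) ∧ ev h (E : Divisor K F) f = ev h D φ

theorem Gv_indep (hWR : WRfor h) (c : Ctx m D f Q o) (hT : Triv h m D f) {Z Z' : Divisor K F}
    {r r' : F} (hg : Good m D Q o Z r) (hg' : Good m D Q o Z' r') :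
    Gv h D f Z r = Gv h D f Z' r' := by
  have hW : Z - Z' ∈ Divisor.degZero (K := K) (F := F) := by
    rw [Divisor.mem_degZero, map_sub, hg.degree h c, hg'.degree h c, sub_zero]
  have hrr : IsDv (r / r') ((m : ℤ) • (Z - Z')) := (hg.1.div hg'.1).congr (by
    rw [smul_sub]; abel)
  obtain ⟨E, φ, hE, hφ, hED, hev⟩ := hT (Pic0.mk ⟨_, hW⟩) (by
    have : (m : ℤ) • Pic0.mk ⟨_, hW⟩ = Pic0.mk ((m : ℤ) • ⟨_, hW⟩) := rfl
    rw [this, mk_eq_zero_iff]
    exact ⟨_, hrr⟩)
  obtain ⟨s, hs⟩ := (mk_eq_zero_iff (⟨_, hW⟩ - E)).1 (by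
    have : Pic0.mk (⟨_, hW⟩ - E) = Pic0.mk ⟨_, hW⟩ - Pic0.mk E := rfl
    rw [this, hE, sub_self])
  have hs' : IsDv s (Z - Z' - (E : Divisor K F)) := hs
  -- the constant
  obtain ⟨a, ha, hu⟩ := IsDv.const h (u := r / r' / (φ * s ^ m))
    ((hrr.div (hφ.mul (hs'.pow m))).congr (by
      rw [smul_sub, smul_sub, smul_sub]; abel))
  have hr : r = algebraMap K F a * r' * φ * s ^ m := by
    have h1 := hg'.1.1
    have h2 := hφ.1
    have h3 := pow_ne_zero m hs'.1
    rw [← hu]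
    field_simp
  -- regularity
  have hSD : ∀ v, D v ≠ 0 → (Z - Z' - (E : Divisor K F)) v = 0 := fun v hv => by
    rw [Finsupp.sub_apply, Finsupp.sub_apply, hg.2 v hv, hg'.2 v hv, hED v hv]
    simp
  have hfZ' : Reg Z' f := c.reg hg'.2
  have hfE : Reg (E : Divisor K F) f := c.reg hED
  have hfS : Reg (Z - Z' - (E : Divisor K F)) f := c.reg hSD
  have hsD : Reg D s := hs'.reg hSD
  have hφD : Reg D φ := hφ.reg fun v hv => by rw [Finsupp.smul_apply, hED v hv, smul_zero]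
  have hr'D : Reg D r' := hg'.reg c
  have hwr := hWR f s _ _ c.dv hs' fun v => by
    by_cases hv : D v = 0
    · left; rw [Finsupp.smul_apply, hv, smul_zero]
    · right; exact hSD v hv
  rw [ev_zsmul, zpow_natCast] at hwr
  have hZ : Z = Z' + (E : Divisor K F) + (Z - Z' - (E : Divisor K F)) := by abel
  have e1 : ev h Z f = ev h Z' f * ev h (E : Divisor K F) f * ev h D s ^ m := by
    conv_lhs => rw [hZ]
    rw [ev_add h (hfZ'.add hfE) hfS, ev_add h hfZ' hfE, hwr]
  have e2 : ev h D r = ev h D r' * ev h D φ * ev h D s ^ m := by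
    rw [hr, ev_mul h (((Reg.const D ha).mul hr'D).mul hφD) (hsD.pow m),
      ev_mul h ((Reg.const D ha).mul hr'D) hφD, ev_mul h (Reg.const D ha) hr'D, ev_const h D ha,
      c.deg, zpow_zero, one_mul, ev_pow h hsD]
  unfold Gv
  rw [e1, e2, hev]
  have h1 := ev_ne_zero h hφD
  have h2 := ev_ne_zero h hsD
  have h3 := ev_ne_zero h hr'D
  field_simp

omit [IsAlgClosed K] [CharZero K] in
theorem Good.smul {Z : Divisor K F} {r : F} (hg : Good m D Q o Z r) (σ : SemilinearAut K F)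
    (hD : σ • D = D) (hQ : σ • Q = Q) (ho : σ • o = o) : Good m D Q o (σ • Z) (σ • r) := by
  refine ⟨(hg.1.smul σ).congr ?_, fun v hv => ?_⟩
  · rw [smul_add, smul_sub, SemilinearAut.smul_single, SemilinearAut.smul_single, hQ, ho]
    congr 2
    exact map_zsmul (DistribSMul.toAddMonoidHom (Divisor K F) σ) (m : ℤ) Z
  · rw [SemilinearAut.divisor_smul_apply]
    apply hg.2
    rw [← SemilinearAut.divisor_smul_apply, hD]
    exact hv

omit [CharZero K] in
theorem Gv_smul (Z : Divisor K F) (r : F) (σ : SemilinearAut K F) (hD : σ • D = D)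
    (hf : σ • f = f) :
    Gv h D f (σ • Z) (σ • r) = SemilinearAut.baseAut σ (Gv h D f Z r) := by
  unfold Gv
  rw [map_div₀, ← ev_smul, ← ev_smul, hD, hf]

end Fermat.Agent.S19.ND
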